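import Mathlib

/-!
# Row LT, tower T7, node T7.14 `RigidC`, leaf R0 (helper954, OFF-MAIN): `∑_v N v ^ (-s) < ∞`

Mathlib only.  For a number field `K` and `s > 1` the series `∑_v N v ^ (-s)` over the finite
places of `K` converges: a place `v` lies over the rational prime `p = absNorm (v ∩ ℤ)`,
`N v ≥ p`, and at most `[K : ℚ]` places lie over a given `p`; so the series is dominated by
`[K : ℚ] · ∑_p p ^ (-s)` (`Nat.Primes.summable_rpow`).
-/

set_option autoImplicit false
set_option linter.deprecated false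

open IsDedekindDomain NumberField

noncomputable section

namespace Fermat.Agent.LT.T7.H954

/-- A non-negative family `f` on `α` is summable if it is dominated by `g ∘ φ`, `g` summable and
non-negative, and the fibres of `φ` have at most `n` elements. -/
theorem summable_of_fibre_bound954 {α β : Type*} (φ : α → β) (n : ℕ) (f : α → ℝ) (g : β → ℝ)
    (hf : ∀ a, 0 ≤ f a) (hfg : ∀ a, f a ≤ g (φ a)) (hg0 : ∀ b, 0 ≤ g b) (hg : Summable g)
    (hfib : ∀ (s : Finset α) (b : β), ∀ t : Finset α, t ⊆ s → (∀ a ∈ t, φ a = b) → t.card ≤ n) :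
    Summable f := by
  classical
  refine summable_of_sum_le (c := n * ∑' b, g b) hf ?_
  intro s
  calc ∑ a ∈ s, f a ≤ ∑ a ∈ s, g (φ a) := Finset.sum_le_sum fun a _ => hfg a
    _ = ∑ b ∈ s.image φ, ∑ a ∈ s with φ a = b, g (φ a) := by
        rw [Finset.sum_fiberwise_of_maps_to (fun a ha => Finset.mem_image_of_mem φ ha)]
    _ ≤ ∑ b ∈ s.image φ, (n : ℝ) * g b := by
        refine Finset.sum_le_sum fun b _ => ?_
        have h1 : ∑ a ∈ s with φ a = b, g (φ a) = ∑ a ∈ s with φ a = b, g b :=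
          Finset.sum_congr rfl fun a ha => by rw [(Finset.mem_filter.mp ha).2]
        rw [h1, Finset.sum_const, nsmul_eq_mul]
        have h2 : (s.filter fun a => φ a = b).card ≤ n :=
          hfib s b _ (Finset.filter_subset _ _) fun a ha => (Finset.mem_filter.mp ha).2
        exact mul_le_mul_of_nonneg_right (by exact_mod_cast h2) (hg0 b)
    _ = (n : ℝ) * ∑ b ∈ s.image φ, g b := by rw [Finset.mul_sum]
    _ ≤ (n : ℝ) * ∑' b, g b :=
        mul_le_mul_of_nonneg_left (hg.sum_le_tsum _ fun b _ => hg0 b) (Nat.cast_nonneg n)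

variable (K : Type) [Field K] [NumberField K]

/-- The rational prime below a finite place. -/
def primeBelow954 (v : HeightOneSpectrum (𝓞 K)) : Nat.Primes :=
  ⟨Ideal.absNorm (Ideal.under ℤ v.asIdeal), by
    have : NeZero v.asIdeal := ⟨v.ne_bot⟩
    exact Nat.absNorm_under_prime v.asIdeal⟩

theorem primeBelow_le954 (v : HeightOneSpectrum (𝓞 K)) :
    ((primeBelow954 K v : ℕ) : ℝ) ≤ (Ideal.absNorm v.asIdeal : ℝ) := by
  have h0 : Ideal.absNorm v.asIdeal ≠ 0 := by
    rw [Ne, Ideal.absNorm_eq_zero_iff]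
    exact v.ne_bot
  have h1 : Ideal.absNorm (Ideal.under ℤ v.asIdeal) ∣ Ideal.absNorm v.asIdeal :=
    Int.absNorm_under_dvd_absNorm v.asIdeal
  exact_mod_cast Nat.le_of_dvd (Nat.pos_of_ne_zero h0) h1

/-- At most `[K : ℚ]` finite places lie over a given rational prime. -/
theorem card_fibre_le954 (p : Nat.Primes) (t : Finset (HeightOneSpectrum (𝓞 K)))
    (ht : ∀ v ∈ t, primeBelow954 K v = p) : t.card ≤ Module.finrank ℚ K := by
  classical
  have : Fact (Nat.Prime (p : ℕ)) := ⟨p.2⟩
  have hp0 : (Ideal.span {((p : ℕ) : ℤ)}) ≠ ⊥ := by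
    rw [Ne, Ideal.span_singleton_eq_bot]
    exact_mod_cast p.2.ne_zero
  have hinj : Set.InjOn (fun v : HeightOneSpectrum (𝓞 K) => v.asIdeal) (t : Set _) :=
    fun v _ w _ h => HeightOneSpectrum.ext h
  have hsub : t.image (fun v : HeightOneSpectrum (𝓞 K) => v.asIdeal)
      ⊆ IsDedekindDomain.primesOverFinset (Ideal.span {((p : ℕ) : ℤ)}) (𝓞 K) := by
    intro P hP
    obtain ⟨v, hv, rfl⟩ := Finset.mem_image.mp hP
    rw [IsDedekindDomain.mem_primesOverFinset_iff hp0]
    refine ⟨v.isPrime, ?_⟩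
    have h1 : (p : ℕ) = Ideal.absNorm (Ideal.under ℤ v.asIdeal) := by
      rw [← ht v hv]; rfl
    rw [h1]
    exact Int.liesOver_span_absNorm v.asIdeal
  calc t.card = (t.image fun v : HeightOneSpectrum (𝓞 K) => v.asIdeal).card :=
        (Finset.card_image_of_injOn hinj).symm
    _ ≤ (IsDedekindDomain.primesOverFinset (Ideal.span {((p : ℕ) : ℤ)}) (𝓞 K)).card :=
        Finset.card_le_card hsub
    _ ≤ Module.finrank ℚ K := Ideal.card_primesOverFinset_le_finrank (𝓞 K) ℚ K hp0

/-- **R0.**  `∑_v N v ^ (-s)` over the finite places of a number field converges for `s > 1`. -/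
theorem summable_absNorm_rpow954 (s : ℝ) (hs : 1 < s) :
    Summable fun v : HeightOneSpectrum (𝓞 K) => (Ideal.absNorm v.asIdeal : ℝ) ^ (-s) := by
  have hg : Summable fun p : Nat.Primes => ((p : ℕ) : ℝ) ^ (-s) :=
    Nat.Primes.summable_rpow.mpr (by linarith)
  refine summable_of_fibre_bound954 (primeBelow954 K) (Module.finrank ℚ K) _
    (fun p : Nat.Primes => ((p : ℕ) : ℝ) ^ (-s)) ?_ ?_ ?_ hg ?_
  · intro v
    exact Real.rpow_nonneg (Nat.cast_nonneg _) _
  · intro v
    have hp : (0 : ℝ) < ((primeBelow954 K v : ℕ) : ℝ) := by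
      exact_mod_cast (primeBelow954 K v).2.pos
    exact Real.antitoneOn_rpow_Ioi_of_exponent_nonpos (by linarith : -s ≤ 0) hp
      (lt_of_lt_of_le hp (primeBelow_le954 K v)) (primeBelow_le954 K v)
  · intro p
    exact Real.rpow_nonneg (Nat.cast_nonneg _) _
  · intro _ p t _ ht
    exact card_fibre_le954 K p t ht

end Fermat.Agent.LT.T7.H954

end
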