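import Mathlib
import Fermat.Agent.LT.T7.H62.RigidSpec
import Fermat.Agent.LT.T7.H954.PlaceSumCore

/-!
# Row LT, tower T7, node T7.14 `RigidC`, leaf R0 `PlaceSumC` (helper954, OFF-MAIN)

`Rigid.PlaceSumC K` VERBATIM against `LT/T7/H62/RigidSpec.lean` (helper62@e50c72768, sha256
a87f852b4cba4313, byte-identical copy), for every number field `K`, unconditionally.
The proof is `summable_absNorm_rpow954` of `PlaceSumCore.lean` (Mathlib only).
-/

set_option autoImplicit false

open IsDedekindDomain NumberField

noncomputable section

namespace Fermat.Agent.LT.T7.H954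

/-- **Leaf R0 of `T7.14`**: `∑_v N v ^ (-s) < ∞` for `s > 1`. -/
theorem placeSumC954 (K : Type) [Field K] [NumberField K] :
    Fermat.Agent.LT.T7.Rigid.PlaceSumC K := by
  intro s hs
  exact summable_absNorm_rpow954 K s hs

/-- The same for all number fields, in the shape consumed by `Rigid.rigidAll_of`. -/
theorem placeSumAll954 :
    ∀ (K : Type) [Field K] [NumberField K], Fermat.Agent.LT.T7.Rigid.PlaceSumC K :=
  fun K _ _ => placeSumC954 K

end Fermat.Agent.LT.T7.H954

end
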